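import Fermat.Agent.ShimuraCover.Cocycle
import Fermat.Prelude.Def_ModularCurve_ModularUnit

set_option autoImplicit false

/-!
# The character `Γ₀(p) → ℤ/n`
-/

open Matrix.SpecialLinearGroup CongruenceSubgroup
open scoped MatrixGroups
open ModularCurve ModularCurve.Period ModularForm
open Fermat.Agent.HeckeHom

namespace Fermat.Agent.ShimuraCover

noncomputable section

section lam

variable (p : ℕ) [hp : Fact p.Prime]

lemma numerator_dvd_card : eisensteinNumerator p ∣ Nat.card (ZMod p)ˣ := by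
  rw [Nat.card_eq_fintype_card, ZMod.card_units]
  exact eisensteinNumerator_dvd p

/-- a surjective character of `(ℤ/p)ˣ` -/
def lam : (ZMod p)ˣ →* Multiplicative (ZMod (eisensteinNumerator p)) :=
  (AddMonoidHom.toMultiplicative (ZMod.castHom (numerator_dvd_card p)
    (ZMod (eisensteinNumerator p))).toAddMonoidHom).comp
    (zmodCyclicMulEquiv (inferInstance : IsCyclic (ZMod p)ˣ)).symm.toMonoidHom

lemma lam_surjective : Function.Surjective (lam p) := by
  intro c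
  obtain ⟨b, hb⟩ := ZMod.castHom_surjective (numerator_dvd_card p) (Multiplicative.toAdd c)
  obtain ⟨u, hu⟩ := (zmodCyclicMulEquiv (inferInstance : IsCyclic (ZMod p)ˣ)).symm.surjective
    (Multiplicative.ofAdd b)
  refine ⟨u, ?_⟩
  change Multiplicative.ofAdd (ZMod.castHom (numerator_dvd_card p) (ZMod (eisensteinNumerator p))
    (Multiplicative.toAdd ((zmodCyclicMulEquiv (inferInstance : IsCyclic (ZMod p)ˣ)).symm u))) = c
  rw [hu, toAdd_ofAdd, hb, ofAdd_toAdd]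

lemma lam_eq_one {u : (ZMod p)ˣ} (hu : u ^ 12 = 1) : lam p u = 1 := by
  set a := (zmodCyclicMulEquiv (inferInstance : IsCyclic (ZMod p)ˣ)).symm u with ha
  have h1 : a ^ 12 = 1 := by rw [ha, ← map_pow, hu, map_one]
  obtain ⟨k, hk⟩ := ZMod.intCast_surjective (Multiplicative.toAdd a)
  have h2 : (((12 * k : ℤ)) : ZMod (Nat.card (ZMod p)ˣ)) = 0 := by
    have := congrArg Multiplicative.toAdd h1
    rw [toAdd_pow, toAdd_one, ← hk] at this
    rw [← this]
    push_cast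
    rw [nsmul_eq_mul]
    norm_num
  rw [ZMod.intCast_zmod_eq_zero_iff_dvd, Nat.card_eq_fintype_card, ZMod.card_units] at h2
  have h3 : ((eisensteinNumerator p : ℕ) : ℤ) ∣ k := by
    have hg : 0 < Nat.gcd (p - 1) 12 := Nat.gcd_pos_of_pos_right _ (by norm_num)
    obtain ⟨n, hn⟩ := Nat.gcd_dvd_left (p - 1) 12
    obtain ⟨h, hh⟩ := Nat.gcd_dvd_right (p - 1) 12
    have hn' : eisensteinNumerator p = n := by
      rw [eisensteinNumerator]
      exact Nat.div_eq_of_eq_mul_right hg hn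
    rw [hn']
    have hcop : Nat.Coprime n h := by
      have h4 := Nat.gcd_mul_left (Nat.gcd (p - 1) 12) n h
      rw [← hn, ← hh] at h4
      exact Nat.eq_of_mul_eq_mul_left hg (by rw [← h4, mul_one])
    have h5 : ((Nat.gcd (p - 1) 12 : ℕ) : ℤ) * n ∣ (Nat.gcd (p - 1) 12 : ℕ) * (h * k) := by
      have e1 : ((p - 1 : ℕ) : ℤ) = (Nat.gcd (p - 1) 12 : ℕ) * n := by exact_mod_cast hn
      have e2 : (12 : ℤ) = (Nat.gcd (p - 1) 12 : ℕ) * h := by exact_mod_cast hh
      rw [← e1, ← mul_assoc, ← e2]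
      exact h2
    have h6 : (n : ℤ) ∣ h * k := (mul_dvd_mul_iff_left (by exact_mod_cast hg.ne')).mp h5
    exact (Int.isCoprime_iff_gcd_eq_one.mpr (by exact_mod_cast hcop)).dvd_of_dvd_mul_left h6
  change Multiplicative.ofAdd (ZMod.castHom (numerator_dvd_card p) (ZMod (eisensteinNumerator p))
    (Multiplicative.toAdd a)) = 1
  rw [← hk, map_intCast, (ZMod.intCast_zmod_eq_zero_iff_dvd _ _).mpr h3]
  rfl

end lam

variable {p : ℕ} [hp : Fact p.Prime]

/-- the lower right entry -/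
def dU : Gamma0 p →* (ZMod p)ˣ := (Gamma0Map p).toHomUnits

/-- the upper left entry -/
def aU : Gamma0 p →* (ZMod p)ˣ := dU⁻¹

lemma mul_coe_eq_one (γ : Gamma0 p) :
    (((γ : SL(2, ℤ)) 0 0 : ℤ) : ZMod p) * (((γ : SL(2, ℤ)) 1 1 : ℤ) : ZMod p) = 1 := by
  have h1 := (γ : SL(2, ℤ)).det_coe
  rw [Matrix.det_fin_two] at h1
  have h2 : (((γ : SL(2, ℤ)) 1 0 : ℤ) : ZMod p) = 0 := Gamma0_mem.mp γ.2
  have h3 := congrArg (fun z : ℤ => (z : ZMod p)) h1
  push_cast at h3
  rw [h2, mul_zero, sub_zero] at h3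
  exact h3

lemma coe_aU (γ : Gamma0 p) : ((aU γ : (ZMod p)ˣ) : ZMod p) = (((γ : SL(2, ℤ)) 0 0 : ℤ) : ZMod p) := by
  change (((dU γ)⁻¹ : (ZMod p)ˣ) : ZMod p) = _
  apply Units.inv_eq_of_mul_eq_one_left
  exact mul_coe_eq_one γ

variable (p) in
/-- the character -/
def chi : Additive (Gamma0 p) →+ ZMod (eisensteinNumerator p) :=
  MonoidHom.toAdditiveLeft ((lam p).comp aU)

lemma chi_apply (γ : Gamma0 p) : chi p (Additive.ofMul γ) = Multiplicative.toAdd (lam p (aU γ)) := rfl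

lemma chi_eq_zero_of_pow (γ : Gamma0 p) (h : γ ^ 12 = 1) : chi p (Additive.ofMul γ) = 0 := by
  rw [chi_apply, lam_eq_one, toAdd_one]
  rw [← map_pow, h, map_one]

lemma isParabolicHom_chi : IsParabolicHom (Gamma0 p) (chi p) := by
  intro γ hγ
  rw [chi_apply, lam_eq_one, toAdd_one]
  rw [Matrix.trace_fin_two] at hγ
  have h1 := congrArg (fun z : ℤ => (z : ZMod p)) hγ
  push_cast at h1
  have h2 := mul_coe_eq_one γ
  set a := (((γ : SL(2, ℤ)) 0 0 : ℤ) : ZMod p) with ha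
  set d := (((γ : SL(2, ℤ)) 1 1 : ℤ) : ZMod p) with hd
  have h3 : (a - d) ^ 2 = 0 := by linear_combination h1 - 4 * h2
  have h4 : a - d = 0 := pow_eq_zero_iff (two_ne_zero) |>.mp h3
  have h5 : a ^ 2 = 1 := by linear_combination h2 + a * h4
  apply Units.ext
  rw [Units.val_pow_eq_pow_val, coe_aU, Units.val_one, ← ha, show (12 : ℕ) = 2 * 6 from rfl, pow_mul,
    h5, one_pow]

lemma aU_surjective : Function.Surjective (aU : Gamma0 p →* (ZMod p)ˣ) := by
  intro u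
  obtain ⟨x, hx⟩ := ZMod.intCast_surjective (u : ZMod p)
  have hcop : IsCoprime (p : ℤ) x := by
    refine (Nat.prime_iff_prime_int.mp hp.out).coprime_iff_not_dvd.mpr fun h => ?_
    rw [(ZMod.intCast_zmod_eq_zero_iff_dvd _ _).mpr h] at hx
    exact u.ne_zero hx.symm
  obtain ⟨z, y, hzy⟩ := hcop
  let M : SL(2, ℤ) := ⟨!![x, -z; p, y], by rw [Matrix.det_fin_two_of]; linear_combination hzy⟩
  have hM : M ∈ Gamma0 p := by
    rw [Gamma0_mem]
    simp [M]
  refine ⟨⟨M, hM⟩, Units.ext ?_⟩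
  rw [coe_aU, ← hx]
  rfl

lemma chi_surjective : Function.Surjective (chi p) := by
  intro c
  obtain ⟨u, hu⟩ := lam_surjective p (Multiplicative.ofAdd c)
  obtain ⟨γ, hγ⟩ := aU_surjective u
  refine ⟨Additive.ofMul γ, ?_⟩
  rw [chi_apply, hγ, hu]
  rfl

section hecke

variable {ι : Type*} {rep : ι → GL (Fin 2) ℝ}

lemma rel_entry {r s : ι → ℤ} {d : ι → ℝ}
    (hr : ∀ x, ((rep x : GL (Fin 2) ℝ) : Matrix (Fin 2) (Fin 2) ℝ) = !![(r x : ℝ), (s x : ℝ); 0, d x])
    {γ : Gamma0 p} {σ : Equiv.Perm ι} {g : ι → Gamma0 p} (h : Rel rep p γ σ g) (x : ι) :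
    (r x : ZMod p) * (((γ : SL(2, ℤ)) 0 0 : ℤ) : ZMod p) =
      (((g x : SL(2, ℤ)) 0 0 : ℤ) : ZMod p) * (r (σ x) : ZMod p) := by
  have h1 := congrArg (fun g : GL (Fin 2) ℝ => (g : Matrix (Fin 2) (Fin 2) ℝ) 0 0) (h x)
  simp only [Units.val_mul, Matrix.mul_apply, Fin.sum_univ_two, hr] at h1
  have e : ∀ (g : SL(2, ℤ)) (i j : Fin 2), ((mapGL ℝ g : GL (Fin 2) ℝ) : Matrix (Fin 2) (Fin 2) ℝ) i j =
    ((g i j : ℤ) : ℝ) := fun g i j => by simp
  simp only [e, Matrix.of_apply, Matrix.cons_val', Matrix.cons_val_zero, Matrix.cons_val_one,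
    Matrix.empty_val', Matrix.cons_val_fin_one, mul_zero, add_zero] at h1
  have h2 : r x * (γ : SL(2, ℤ)) 0 0 + s x * (γ : SL(2, ℤ)) 1 0 =
    (g x : SL(2, ℤ)) 0 0 * r (σ x) := by exact_mod_cast h1
  have h3 := congrArg (fun z : ℤ => (z : ZMod p)) h2
  push_cast at h3
  have h4 : (((γ : SL(2, ℤ)) 1 0 : ℤ) : ZMod p) = 0 := Gamma0_mem.mp γ.2
  rwa [h4, mul_zero, add_zero] at h3

lemma sum_chi [Fintype ι] {r s : ι → ℤ} {d : ι → ℝ}
    (hr : ∀ x, ((rep x : GL (Fin 2) ℝ) : Matrix (Fin 2) (Fin 2) ℝ) = !![(r x : ℝ), (s x : ℝ); 0, d x])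
    (hu : ∀ x, (r x : ZMod p) ≠ 0)
    {γ : Gamma0 p} {σ : Equiv.Perm ι} {g : ι → Gamma0 p} (h : Rel rep p γ σ g) :
    ∑ x, chi p (Additive.ofMul (g x)) = Fintype.card ι • chi p (Additive.ofMul γ) := by
  let ru : ι → (ZMod p)ˣ := fun x => Units.mk0 _ (hu x)
  have key : ∀ x, chi p (Additive.ofMul (g x)) = (Multiplicative.toAdd (lam p (ru x)) -
      Multiplicative.toAdd (lam p (ru (σ x)))) + chi p (Additive.ofMul γ) := by
    intro x
    have h1 : ru x * aU γ = aU (g x) * ru (σ x) := by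
      apply Units.ext
      rw [Units.val_mul, Units.val_mul, coe_aU, coe_aU]
      exact rel_entry hr h x
    have h2 := congrArg (fun u => Multiplicative.toAdd (lam p u)) h1
    simp only [map_mul, toAdd_mul] at h2
    rw [chi_apply, chi_apply, sub_add_eq_add_sub, h2, add_sub_cancel_right]
  rw [Finset.sum_congr rfl (fun x _ => key x), Finset.sum_add_distrib, Finset.sum_sub_distrib,
    Equiv.sum_comp σ (fun x => Multiplicative.toAdd (lam p (ru x))), sub_self, zero_add,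
    Finset.sum_const, Finset.card_univ]

end hecke

theorem opT_chi {ℓ : ℕ} (hℓ : ℓ.Prime) (hℓN : ¬ ℓ ∣ p) (γ : Gamma0 p) :
    opT p hℓ hℓN _ (chi p) (Additive.ofMul γ) = ((1 + ℓ : ℤ) : ZMod _) * chi p (Additive.ofMul γ) := by
  have : NeZero ℓ := ⟨hℓ.ne_zero⟩
  change ∑ x, chi p (Additive.ofMul ((isHeckeFam_T hℓ hℓN).elt γ x)) = _
  rw [sum_chi (r := fun x => x.elim ℓ (fun _ => 1)) (s := fun x => x.elim 0 (fun j => j.val))
    (d := fun x => x.elim 1 (fun _ => ℓ)) ?_ ?_ ((isHeckeFam_T hℓ hℓN).rel_elt γ)]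
  · rw [nsmul_eq_mul, Fintype.card_option, ZMod.card]
    push_cast
    ring
  · rintro (_ | x)
    · rw [repT_none, val_heckeDiagMatrix (NeZero.ne ℓ)]
      simp
    · rw [repT_some, repU, val_heckeMatrix (NeZero.ne ℓ)]
      simp
  · rintro (_ | x)
    · change ((ℓ : ℤ) : ZMod p) ≠ 0
      intro h
      rw [ZMod.intCast_zmod_eq_zero_iff_dvd] at h
      have h' : p ∣ ℓ := by exact_mod_cast h
      exact hℓN ((Nat.prime_dvd_prime_iff_eq hp.out hℓ).mp h' ▸ dvd_rfl)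
    · change ((1 : ℤ) : ZMod p) ≠ 0
      rw [Int.cast_one]
      exact one_ne_zero

theorem opU_chi (hq : p ∣ p) (γ : Gamma0 p) :
    opU p hq _ (chi p) (Additive.ofMul γ) = chi p (Additive.ofMul γ) := by
  have : NeZero p := ⟨hp.out.ne_zero⟩
  change ∑ x, chi p (Additive.ofMul ((isHeckeFam_U hq).elt γ x)) = _
  rw [sum_chi (r := fun x => 1) (s := fun x => x.val)
    (d := fun _ => p) ?_ ?_ ((isHeckeFam_U hq).rel_elt γ)]
  · rw [nsmul_eq_mul, ZMod.card]
    have h1 : ((p : ℕ) : ZMod (eisensteinNumerator p)) = 1 := by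
      obtain ⟨k, hk⟩ := eisensteinNumerator_dvd p
      have h2 : p = eisensteinNumerator p * k + 1 := by
        rw [← hk]; exact (Nat.succ_pred_prime hp.out).symm
      have h3 := congrArg (fun z : ℕ => (z : ZMod (eisensteinNumerator p))) h2
      simp only [Nat.cast_add, Nat.cast_mul, Nat.cast_one, ZMod.natCast_self, zero_mul,
        zero_add] at h3
      exact h3
    rw [h1, one_mul]
  · intro x
    rw [repU, val_heckeMatrix (NeZero.ne p)]
    simp
  · intro x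
    rw [Int.cast_one]
    exact one_ne_zero

end

end Fermat.Agent.ShimuraCover
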