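import Fermat.Agent.ShimuraCover.Lift2
import Fermat.Agent.ShimuraCover.Chi
import Fermat.Agent.S23
import Fermat.Prelude.Def_CuspForm_HeckeLocal
import Fermat.Prelude.Def_CuspForm_HeckeEvalForms
import Fermat.Prelude.Def_HeckeGalois_EichlerShimura

set_option autoImplicit false

/-!
# The lower bound for the Eisenstein quotient
-/

open Matrix.SpecialLinearGroup CongruenceSubgroup
open scoped MatrixGroups
open ModularCurve ModularCurve.Period CuspForm
open Fermat.Agent.HeckeHom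

namespace Fermat.Agent.ShimuraCover

noncomputable section

variable (p : ℕ) [hp : Fact p.Prime]

/-- homomorphisms with all values divisible by `n` -/
def nLZ (n : ℕ) : Submodule ℤ (LZ p) where
  carrier := {φ | ∀ γ, (n : ℤ) ∣ φ.1 γ}
  add_mem' {φ ψ} h1 h2 γ := dvd_add (h1 γ) (h2 γ)
  zero_mem' γ := dvd_zero _
  smul_mem' c φ h γ := Dvd.dvd.mul_left (h γ) c

variable {p}

lemma exists_of_mem_nLZ {n : ℕ} (hn : n ≠ 0) {φ : LZ p} (h : φ ∈ nLZ p n) :
    ∃ φ' : LZ p, φ = (n : ℤ) • φ' := by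
  choose f hf using h
  have hn' : (n : ℤ) ≠ 0 := by exact_mod_cast hn
  refine ⟨⟨AddMonoidHom.mk' f fun a b => ?_, fun γ hγ => ?_⟩, ?_⟩
  · apply mul_left_cancel₀ hn'
    rw [mul_add, ← hf, ← hf, ← hf, map_add]
  · change f (Additive.ofMul γ) = 0
    apply mul_left_cancel₀ hn'
    rw [← hf, mul_zero]
    exact φ.2 γ hγ
  · apply Subtype.ext
    ext γ
    exact hf γ

lemma map_mem_nLZ {n : ℕ} (hn : n ≠ 0) (u : Module.End ℤ (LZ p)) {φ : LZ p} (h : φ ∈ nLZ p n) :
    u φ ∈ nLZ p n := by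
  obtain ⟨φ', rfl⟩ := exists_of_mem_nLZ hn h
  rw [map_smul]
  intro γ
  exact Dvd.intro _ rfl

variable (p) in
lemma numerator_ne_zero : eisensteinNumerator p ≠ 0 := by
  rw [eisensteinNumerator]
  have h1 : 0 < p - 1 := Nat.sub_pos_of_lt hp.out.one_lt
  exact (Nat.div_pos (Nat.le_of_dvd h1 (Nat.gcd_dvd_left _ _))
    (Nat.gcd_pos_of_pos_left _ h1)).ne'

section main

variable {ψ : LZ p}

lemma gen_mem (hψ : ∀ γ, ((ψ.1 γ : ℤ) : ZMod (eisensteinNumerator p)) = chi p γ) (ℓ : Nat.Primes) :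
    actL p ∅ (heckeFormsGen p 2 ℓ) ψ - (eisensteinSystem p ℓ) • ψ ∈
      nLZ p (eisensteinNumerator p) := by
  have hred : (Int.castAddHom (ZMod (eisensteinNumerator p))).comp ψ.1 = chi p := by
    ext γ; exact hψ γ
  intro γ
  obtain ⟨γ, rfl⟩ := Additive.ofMul.surjective γ
  rw [← ZMod.intCast_zmod_eq_zero_iff_dvd]
  change (((actL p ∅ (heckeFormsGen p 2 ℓ) ψ).1 (Additive.ofMul γ) -
    eisensteinSystem p ℓ * ψ.1 (Additive.ofMul γ) : ℤ) : ZMod (eisensteinNumerator p)) = 0
  rw [Int.cast_sub, Int.cast_mul, hψ, sub_eq_zero]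
  by_cases h : (ℓ : ℕ) ∣ p
  · rw [heckeFormsGen_of_dvd h, actL_U, eisensteinSystem_of_dvd h, Int.cast_one, one_mul]
    have h1 := DFunLike.congr_fun (comp_opU h (Int.castAddHom (ZMod (eisensteinNumerator p))) ψ.1)
      (Additive.ofMul γ)
    rw [hred] at h1
    refine h1.trans ?_
    have h2 : (ℓ : ℕ) = p := (Nat.prime_dvd_prime_iff_eq ℓ.2 hp.out).mp h
    have h3 : ∀ (q : ℕ) (hq : q ∣ p), q = p →
      opU p hq _ (chi p) (Additive.ofMul γ) = chi p (Additive.ofMul γ) := by
      rintro q hq rfl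
      exact opU_chi hq γ
    exact h3 _ h h2
  · rw [heckeFormsGen_of_not_dvd h, actL_T, eisensteinSystem_of_not_dvd h]
    have h1 := DFunLike.congr_fun (comp_opT ℓ.2 h (Int.castAddHom (ZMod (eisensteinNumerator p))) ψ.1)
      (Additive.ofMul γ)
    rw [hred] at h1
    exact h1.trans (opT_chi ℓ.2 h γ)

lemma eval_mem (hψ : ∀ γ, ((ψ.1 γ : ℤ) : ZMod (eisensteinNumerator p)) = chi p γ) (P : HeckeAlg) :
    actL p ∅ (heckeEvalForms p 2 P) ψ - (MvPolynomial.aeval (eisensteinSystem p) P : ℤ) • ψ ∈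
      nLZ p (eisensteinNumerator p) := by
  induction P using MvPolynomial.induction_on with
  | C a =>
    have h1 : heckeEvalForms p 2 (MvPolynomial.C a) = (a : heckeAlgebra p 2 ∅) := by
      rw [show (MvPolynomial.C a : HeckeAlg) = ((a : ℤ) : HeckeAlg) from by simp, map_intCast]
    rw [h1, MvPolynomial.aeval_C, map_intCast]
    have h2 : ((a : Module.End ℤ (LZ p)) : Module.End ℤ (LZ p)) ψ = a • ψ := by
      rw [← zsmul_one, LinearMap.smul_apply, Module.End.one_apply]
    rw [h2]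
    simp
  | add P Q hP hQ =>
    rw [map_add, map_add, map_add, LinearMap.add_apply, add_smul, add_sub_add_comm]
    exact add_mem hP hQ
  | mul_X P ℓ hP =>
    have h1 : heckeEvalForms p 2 (MvPolynomial.X ℓ) = heckeFormsGen p 2 ℓ :=
      heckeEvalForms_heckeGen p 2 ℓ
    rw [map_mul, map_mul, map_mul, h1, MvPolynomial.aeval_X, Module.End.mul_apply]
    have h2 := map_mem_nLZ (numerator_ne_zero p) (actL p ∅ (heckeEvalForms p 2 P)) (gen_mem hψ ℓ)
    rw [map_sub, map_smul] at h2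
    have h3 := Submodule.smul_mem _ (eisensteinSystem p ℓ) hP
    have h4 := add_mem h2 h3
    rw [smul_sub, smul_smul, mul_comm (eisensteinSystem p ℓ)] at h4
    convert h4 using 1
    abel

lemma map_mem (hψ : ∀ γ, ((ψ.1 γ : ℤ) : ZMod (eisensteinNumerator p)) = chi p γ)
    {t : heckeAlgebra p 2 ∅} (ht : t ∈ Ideal.map (heckeEvalForms p 2) (eisensteinIdeal p)) :
    actL p ∅ t ψ ∈ nLZ p (eisensteinNumerator p) := by
  rw [Ideal.map] at ht
  induction ht using Submodule.span_induction with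
  | mem x hx =>
    obtain ⟨P, hP, rfl⟩ := hx
    have h1 := eval_mem hψ P
    have h2 : MvPolynomial.aeval (eisensteinSystem p) P = 0 := (mem_eigenIdeal_iff _ _).mp hP
    rwa [h2, zero_smul, sub_zero] at h1
  | zero => rw [map_zero]; exact zero_mem _
  | add x y _ _ hx hy => rw [map_add]; exact add_mem hx hy
  | smul a x _ hx =>
    rw [smul_eq_mul, map_mul, Module.End.mul_apply]
    exact map_mem_nLZ (numerator_ne_zero p) _ hx

end main

variable (p)

/-- the lower bound, for the algebra generated by Hecke operators on forms -/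
theorem dvd_of_intCast_mem_map {k : ℤ}
    (hk : (k : heckeAlgebra p 2 ∅) ∈ Ideal.map (heckeEvalForms p 2) (eisensteinIdeal p)) :
    (eisensteinNumerator p : ℤ) ∣ k := by
  have : NeZero (eisensteinNumerator p) := ⟨numerator_ne_zero p⟩
  obtain ⟨ψ, hψ⟩ := exists_lift p (chi p) isParabolicHom_chi chi_eq_zero_of_pow
  have h1 := map_mem hψ hk
  obtain ⟨γ, hγ⟩ := chi_surjective (p := p) 1
  have h2 := h1 γ
  have h3 : actL p ∅ (k : heckeAlgebra p 2 ∅) ψ = k • ψ := by
    rw [map_intCast, ← zsmul_one, LinearMap.smul_apply, Module.End.one_apply]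
  rw [h3] at h2
  have h4 : (eisensteinNumerator p : ℤ) ∣ k * ψ.1 γ := h2
  rw [← ZMod.intCast_zmod_eq_zero_iff_dvd, Int.cast_mul, hψ, hγ, mul_one,
    ZMod.intCast_zmod_eq_zero_iff_dvd] at h4
  exact h4

/-- the lower bound for the lattice Hecke algebra -/
theorem dvd_of_intCast_mem {k : ℤ}
    (hk : (k : heckeLatticeAlgebra p ∅) ∈
      Ideal.map ((latticeRestrictHom p ∅).toRingHom.comp (heckeEvalForms p 2))
          (eisensteinIdeal p)) :
    (eisensteinNumerator p : ℤ) ∣ k := by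
  apply dvd_of_intCast_mem_map p
  have hb : Function.Bijective (latticeRestrictHom p ∅).toRingHom :=
    latticeRestrictHom_bijective p ∅ (Fermat.Agent.S23.result p)
  rw [← Ideal.comap_map_of_bijective _ hb
    (I := Ideal.map (heckeEvalForms p 2) (eisensteinIdeal p)), Ideal.mem_comap, Ideal.map_map,
    map_intCast]
  exact hk

end

end Fermat.Agent.ShimuraCover
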