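import Mathlib

set_option autoImplicit false

/-!
# Lifting cycles mod `n` to integral cycles on a connected graph
-/

namespace Fermat.Agent.ShimuraCover

open Finset

section

variable {G X : Type*} [Group G] [MulAction G X] [Fintype X] [DecidableEq X]

/-- the orbit of `x` under an element of order three -/
def orb3 (U : G) (x : X) : Finset X := {x, U • x, U • U • x}

lemma mem_orb3 {U : G} {x y : X} : y ∈ orb3 U x ↔ y = x ∨ y = U • x ∨ y = U • U • x := by
  simp [orb3]

lemma orb3_eq_of_mem {U : G} (hU : ∀ x : X, U • U • U • x = x) {x y : X} (h : y ∈ orb3 U x) :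
    orb3 U y = orb3 U x := by
  rw [mem_orb3] at h
  rcases h with rfl | rfl | rfl
  · rfl
  · ext z
    simp only [mem_orb3, hU]
    tauto
  · ext z
    simp only [mem_orb3, hU]
    tauto

lemma self_mem_orb3 (U : G) (x : X) : x ∈ orb3 U x := by rw [mem_orb3]; exact Or.inl rfl

/-- orbit sums -/
lemma sum_orb3 {M : Type*} [AddCommMonoid M] {U : G} (hU : ∀ x : X, U • U • U • x = x)
    (f : X → M) (x : X) :
    ∑ z ∈ orb3 U x, f z = if U • x = x then f x else f x + f (U • x) + f (U • U • x) := by
  split_ifs with h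
  · simp [orb3, h]
  · have h2 : x ≠ U • U • x := by
      intro h2
      apply h
      conv_lhs => rw [h2]
      exact hU x
    have h3 : U • x ≠ U • U • x := by
      intro h3
      have := congrArg (fun z => U⁻¹ • z) h3
      simp only [inv_smul_smul] at this
      exact h this.symm
    rw [orb3, Finset.sum_insert, Finset.sum_insert, Finset.sum_singleton, add_assoc]
    · simpa using h3
    · simp only [mem_insert, mem_singleton, not_or]
      exact ⟨fun h' => h h'.symm, h2⟩

variable [MulAction.IsPretransitive G X]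

theorem lift_cycle {S U : G} (hgen : Subgroup.closure ({S, U} : Set G) = ⊤)
    (hS : ∀ x : X, S • S • x = x) (hU : ∀ x : X, U • U • U • x = x) (x₀ : X)
    (hx₀ : U • S • x₀ = x₀) {n : ℕ} [NeZero n] (f : X → ZMod n)
    (h1 : ∀ x, f (S • x) = - f x) (h1' : ∀ x, S • x = x → f x = 0)
    (h2 : ∀ x, f x + f (U • x) + f (U • U • x) = 0) (h2' : ∀ x, U • x = x → f x = 0)
    (h0 : f x₀ = 0) :
    ∃ F : X → ℤ, (∀ x, (F x : ZMod n) = f x) ∧ (∀ x, F (S • x) = - F x) ∧
      (∀ x, F x + F (U • x) + F (U • U • x) = 0) ∧ F x₀ = 0 := by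
  classical
  let e : X ≃ Fin (Fintype.card X) := Fintype.equivFin X
  -- antisymmetric lift
  let F₀ : X → ℤ := fun x => if S • x = x then 0 else
    if e x < e (S • x) then ((f x).val : ℤ) else -((f (S • x)).val : ℤ)
  have hF₀S : ∀ x, F₀ (S • x) = - F₀ x := by
    intro x
    simp only [F₀, hS]
    by_cases hx : S • x = x
    · rw [if_pos hx.symm, if_pos hx, neg_zero]
    · rw [if_neg (fun h => hx h.symm), if_neg hx]
      have hne : e x ≠ e (S • x) := fun h => hx (e.injective h).symm
      rcases lt_or_gt_of_ne hne with h | h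
      · rw [if_neg (not_lt.mpr h.le), if_pos h]
      · rw [if_pos h, if_neg (not_lt.mpr h.le), neg_neg]
  have hF₀c : ∀ x, (F₀ x : ZMod n) = f x := by
    intro x
    simp only [F₀]
    by_cases hx : S • x = x
    · rw [if_pos hx, h1' x hx, Int.cast_zero]
    · rw [if_neg hx]
      by_cases h : e x < e (S • x)
      · rw [if_pos h]; simp
      · rw [if_neg h, h1]; simp
  have hF₀0 : F₀ x₀ = 0 := by
    simp only [F₀]
    split_ifs
    · rfl
    · rw [h0]; simp
    · rw [h1, h0]; simp
  have hsum0 : ∑ x, F₀ x = 0 := by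
    have h3 : ∑ x, F₀ x = ∑ x, F₀ (S • x) :=
      (Equiv.sum_comp (MulAction.toPerm S) F₀).symm
    have h4 : ∑ x, F₀ (S • x) = - ∑ x, F₀ x := by
      rw [← Finset.sum_neg_distrib]
      exact Finset.sum_congr rfl fun x _ => hF₀S x
    rw [h4] at h3
    linarith
  -- orbit sums are divisible by n
  have hdiv : ∀ x, ∃ b : ℤ, ∑ z ∈ orb3 U x, F₀ z = n * b := by
    intro x
    have h3 : ((∑ z ∈ orb3 U x, F₀ z : ℤ) : ZMod n) = 0 := by
      rw [Int.cast_sum]
      simp only [hF₀c]
      rw [sum_orb3 hU]
      split_ifs with h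
      · exact h2' x h
      · exact h2 x
    rw [ZMod.intCast_zmod_eq_zero_iff_dvd] at h3
    exact h3
  -- the group of antisymmetric functions vanishing at x₀
  let W : AddSubgroup (X → ℤ) :=
    { carrier := {g | (∀ x, g (S • x) = - g x) ∧ g x₀ = 0}
      add_mem' := by
        rintro a b ⟨ha, ha0⟩ ⟨hb, hb0⟩
        refine ⟨fun x => ?_, ?_⟩
        · rw [Pi.add_apply, Pi.add_apply, ha, hb]; ring
        · rw [Pi.add_apply, ha0, hb0, add_zero]
      zero_mem' := ⟨fun x => by simp, rfl⟩
      neg_mem' := by
        rintro a ⟨ha, ha0⟩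
        exact ⟨fun x => by rw [Pi.neg_apply, Pi.neg_apply, ha], by rw [Pi.neg_apply, ha0, neg_zero]⟩ }
  -- orbit sum map, as functions on X
  let osum : (X → ℤ) →+ (X → ℤ) :=
    { toFun := fun g x => ∑ z ∈ orb3 U x, g z
      map_zero' := by funext x; simp
      map_add' := fun g g' => by funext x; simp [Finset.sum_add_distrib] }
  have hos : ∀ g x, osum g x = ∑ z ∈ orb3 U x, g z := fun g x => rfl
  let Im : AddSubgroup (X → ℤ) := W.map osum
  let d : X → (X → ℤ) := fun x => Pi.single x 1
  let Stab : Subgroup G :=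
    { carrier := {g | ∀ x, osum (d x) - osum (d (g • x)) ∈ Im}
      mul_mem' := by
        intro a b ha hb x
        have := Im.add_mem (hb x) (ha (b • x))
        rw [mul_smul]
        simpa using this
      one_mem' := by intro x; simp [Im.zero_mem]
      inv_mem' := by
        intro a ha x
        have := Im.neg_mem (ha (a⁻¹ • x))
        simpa using this }
  have hosU : ∀ x, osum (d (U • x)) = osum (d x) := by
    intro x
    funext y
    rw [hos, hos]
    simp only [d, Pi.single_apply, Finset.sum_ite_eq']
    have this : (U • x ∈ orb3 U y) ↔ (x ∈ orb3 U y) := by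
      constructor
      · intro h
        have h3 := orb3_eq_of_mem hU h
        rw [← h3, mem_orb3, hU]; tauto
      · intro h
        have h3 := orb3_eq_of_mem hU h
        rw [← h3, mem_orb3]; tauto
    simp only [this]
  have hSmem : S ∈ Stab := by
    intro x
    by_cases hx : x = x₀ ∨ x = S • x₀
    · have h3 : osum (d x) = osum (d (S • x)) := by
        rcases hx with rfl | rfl
        · rw [← hosU (S • x), hx₀]
        · rw [hS, ← hosU (S • x₀), hx₀]
      rw [h3, sub_self]; exact Im.zero_mem
    · rw [not_or] at hx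
      rw [← map_sub]
      refine AddSubgroup.mem_map_of_mem _ ⟨fun y => ?_, ?_⟩
      · simp only [Pi.sub_apply, d, Pi.single_apply]
        have e1 : (S • y = x) ↔ (y = S • x) := by
          constructor
          · rintro rfl; exact (hS y).symm
          · rintro rfl; exact hS x
        have e2 : (S • y = S • x) ↔ (y = x) := smul_left_cancel_iff S
        simp only [e1, e2]
        ring
      · simp only [Pi.sub_apply, d, Pi.single_apply]
        have e1 : ¬ (x₀ = x) := fun h => hx.1 h.symm
        have e2 : ¬ (x₀ = S • x) := fun h => hx.2 (by rw [h, hS])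
        rw [if_neg e1, if_neg e2, sub_zero]
  have hUmem : U ∈ Stab := by
    intro x
    rw [hosU, sub_self]; exact Im.zero_mem
  have htop : Stab = ⊤ := by
    rw [eq_top_iff, ← hgen, Subgroup.closure_le]
    rintro x (rfl | rfl)
    · exact hSmem
    · exact hUmem
  have hall : ∀ x, osum (d x) - osum (d x₀) ∈ Im := by
    intro x
    obtain ⟨g, hg⟩ := MulAction.exists_smul_eq G x x₀
    have : g ∈ Stab := by rw [htop]; exact Subgroup.mem_top g
    rw [← hg]
    exact this x
  -- osum of an arbitrary function modulo the image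
  have hmod : ∀ F : X → ℤ, osum F - (∑ x, F x) • osum (d x₀) ∈ Im := by
    intro F
    have h3 : F = ∑ x, F x • d x := by
      funext y
      simp [d, Finset.sum_apply, Pi.single_apply]
    have h4 : osum F = ∑ x, F x • osum (d x) := by
      conv_lhs => rw [h3]
      rw [map_sum]
      exact Finset.sum_congr rfl fun x _ => map_zsmul _ _ _
    rw [h4, Finset.sum_smul, ← Finset.sum_sub_distrib]
    refine Im.sum_mem fun x _ => ?_
    rw [← smul_sub]
    exact Im.zsmul_mem (hall x) _
  have htri : ∀ F : X → ℤ, osum F = 0 → ∀ x, F x + F (U • x) + F (U • U • x) = 0 := by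
    intro F hF x
    have h3 := congrFun hF x
    rw [hos, sum_orb3 hU, Pi.zero_apply] at h3
    split_ifs at h3 with h
    · rw [h, h, h3]; simp
    · exact h3
  have htot : ∀ F : X → ℤ, osum F = 0 → ∑ x, F x = 0 := by
    intro F hF
    have h3 : ∑ x, (F x + F (U • x) + F (U • U • x)) = 0 :=
      Finset.sum_eq_zero fun x _ => htri F hF x
    rw [Finset.sum_add_distrib, Finset.sum_add_distrib] at h3
    have h4 : ∑ x, F (U • x) = ∑ x, F x := Equiv.sum_comp (MulAction.toPerm U) F
    have h5 : ∑ x, F (U • U • x) = ∑ x, F x := by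
      rw [← h4]
      exact Equiv.sum_comp (MulAction.toPerm U) (fun x => F (U • x))
    rw [h4, h5] at h3
    linarith
  -- choose representatives of the orbits
  choose b hb using hdiv
  have hne : ∀ x : X, (orb3 U x).Nonempty := fun x => ⟨x, self_mem_orb3 U x⟩
  let pick : X → X := fun x => (hne x).choose
  have hpick : ∀ x, pick x ∈ orb3 U x := fun x => (hne x).choose_spec
  have hpick' : ∀ x y, orb3 U x = orb3 U y → pick x = pick y := by
    intro x y h
    simp only [pick]
    congr 1
    funext z
    rw [h]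
  let c : X → ℤ := fun x => if x = pick x then b x else 0
  have hn : (n : ℤ) ≠ 0 := by exact_mod_cast NeZero.ne n
  have hc : osum c = b := by
    funext x
    rw [hos]
    have h3 : ∀ z ∈ orb3 U x, c z = if z = pick x then b x else 0 := by
      intro z hz
      have h4 := orb3_eq_of_mem hU hz
      have h5 : b z = b x := by
        have h6 := hb z
        rw [h4, hb x] at h6
        exact (mul_left_cancel₀ hn h6).symm
      simp only [c]
      rw [hpick' z x h4, h5]
    rw [Finset.sum_congr rfl h3, Finset.sum_ite_eq' (orb3 U x) (pick x), if_pos (hpick x)]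
  have hF₀b : osum F₀ = (n : ℤ) • b := by
    funext x
    rw [hos, hb, Pi.smul_apply, smul_eq_mul]
  have hcsum : ∑ x, c x = 0 := by
    have h3 : osum (F₀ - (n : ℤ) • c) = 0 := by
      rw [map_sub, map_zsmul, hc, hF₀b, sub_self]
    have h4 := htot _ h3
    simp only [Pi.sub_apply, Pi.smul_apply, smul_eq_mul, Finset.sum_sub_distrib] at h4
    rw [hsum0, ← Finset.mul_sum, zero_sub, neg_eq_zero] at h4
    exact (mul_eq_zero.mp h4).resolve_left hn
  have hbIm : b ∈ Im := by
    have h3 := hmod c
    rwa [hcsum, zero_smul, sub_zero, hc] at h3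
  obtain ⟨g, ⟨hgS, hg0⟩, hgb⟩ := hbIm
  refine ⟨F₀ - (n : ℤ) • g, fun x => ?_, fun x => ?_, ?_, ?_⟩
  · simp [hF₀c]
  · simp only [Pi.sub_apply, Pi.smul_apply, smul_eq_mul, hF₀S, hgS]; ring
  · apply htri
    rw [map_sub, map_zsmul, hgb, hF₀b, sub_self]
  · simp [hF₀0, hg0]

end

end Fermat.Agent.ShimuraCover
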