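import Fermat.Agent.HeckeHom.Faithful
import Fermat.Agent.ShimuraCover.Graph

set_option autoImplicit false

/-!
# Parabolic homomorphisms on `Γ₀(p)` and functions on `SL₂(ℤ)/Γ₀(p)`
-/

open Matrix.SpecialLinearGroup CongruenceSubgroup
open scoped MatrixGroups
open ModularCurve ModularCurve.Period Fermat.Agent.Cosets
open ModularGroup (S T)

namespace Fermat.Agent.ShimuraCover

noncomputable section

variable {p : ℕ}

lemma mem_Gamma0_iff (y : SL(2, ℤ)) : y ∈ Gamma0 p ↔ (p : ℤ) ∣ y 1 0 := by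
  rw [Gamma0_mem, ZMod.intCast_zmod_eq_zero_iff_dvd]

lemma S_inv_T_mul_mem_iff (y : SL(2, ℤ)) (j : ℤ) :
    S⁻¹ * T ^ (-j) * y ∈ Gamma0 p ↔ (p : ℤ) ∣ y 0 0 - j * y 1 0 := by
  have h : (S⁻¹ * T ^ (-j) * y : SL(2, ℤ)) 1 0 = - (y 0 0 - j * y 1 0) := by
    rw [mul_assoc, mul_apply_one_zero, T_zpow_mul_zero_zero, T_zpow_mul_one_zero]
    simp [SL2_inv_expl, S]
    ring
  rw [mem_Gamma0_iff, h, dvd_neg]

variable [hp : Fact p.Prime]

/-- if `y ∉ Γ₀(p)` then a translate of it lies in the other double coset -/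
lemma exists_shift {y : SL(2, ℤ)} (hy : y ∉ Gamma0 p) : ∃ j : ℤ, S⁻¹ * T ^ (-j) * y ∈ Gamma0 p := by
  rw [mem_Gamma0_iff] at hy
  have hcop : IsCoprime (p : ℤ) (y 1 0) :=
    (Nat.prime_iff_prime_int.mp hp.out).coprime_iff_not_dvd.mpr hy
  obtain ⟨u, v, huv⟩ := hcop
  refine ⟨v * y 0 0, ?_⟩
  rw [S_inv_T_mul_mem_iff]
  exact ⟨u * y 0 0, by linear_combination (-y 0 0) * huv⟩

open Classical in
/-- the `Γ₀(p)`-part of a matrix, relative to the cusps `∞`, `0` -/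
def el (p : ℕ) [Fact p.Prime] (y : SL(2, ℤ)) : Gamma0 p :=
  if hy : y ∈ Gamma0 p then ⟨y, hy⟩ else ⟨S⁻¹ * T ^ (-(exists_shift hy).choose) * y,
    (exists_shift hy).choose_spec⟩

lemma el_of_mem {y : SL(2, ℤ)} (hy : y ∈ Gamma0 p) : el p y = ⟨y, hy⟩ := dif_pos hy

section hom

variable {A : Type*} [AddCommGroup A] {φ : Additive (Gamma0 p) →+ A}

lemma trace_conj (g h : SL(2, ℤ)) :
    ((g⁻¹ * h * g : SL(2, ℤ)) : Matrix (Fin 2) (Fin 2) ℤ).trace =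
      (h : Matrix (Fin 2) (Fin 2) ℤ).trace := by
  rw [Matrix.SpecialLinearGroup.coe_mul, Matrix.trace_mul_comm,
    ← Matrix.SpecialLinearGroup.coe_mul, ← mul_assoc, mul_inv_cancel, one_mul]

lemma trace_T_zpow (m : ℤ) : ((T ^ m : SL(2, ℤ)) : Matrix (Fin 2) (Fin 2) ℤ).trace = 2 := by
  rw [ModularGroup.coe_T_zpow]; simp [Matrix.trace_fin_two]

lemma hom_congr {γ δ : Gamma0 p} (h : γ = δ) : φ (Additive.ofMul γ) = φ (Additive.ofMul δ) := by
  rw [h]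

lemma hom_el_of_notMem (hφ : IsParabolicHom (Gamma0 p) φ) {y : SL(2, ℤ)} (hy : y ∉ Gamma0 p) {j : ℤ}
    (hj : S⁻¹ * T ^ (-j) * y ∈ Gamma0 p) :
    φ (Additive.ofMul (el p y)) = φ (Additive.ofMul ⟨S⁻¹ * T ^ (-j) * y, hj⟩) := by
  rw [el, dif_neg hy]
  set i := (exists_shift hy).choose with hi
  have hi' := (exists_shift hy).choose_spec
  rw [← hi] at hi'
  -- the two elements differ by a parabolic element
  have h1 : S⁻¹ * T ^ (-i + j) * S ∈ Gamma0 p := by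
    have : S⁻¹ * T ^ (-i + j) * S = (S⁻¹ * T ^ (-i) * y) * (S⁻¹ * T ^ (-j) * y)⁻¹ := by
      rw [zpow_add]; group
    rw [this]
    exact mul_mem hi' (inv_mem hj)
  have h2 : (⟨S⁻¹ * T ^ (-i) * y, hi'⟩ : Gamma0 p) = ⟨_, h1⟩ * ⟨_, hj⟩ := by
    apply Subtype.ext
    change S⁻¹ * T ^ (-i) * y = (S⁻¹ * T ^ (-i + j) * S) * (S⁻¹ * T ^ (-j) * y)
    rw [zpow_add]; group
  rw [h2, ofMul_mul, map_add, hφ ⟨_, h1⟩ (by
    change ((S⁻¹ * T ^ (-i + j) * S : SL(2, ℤ)) : Matrix (Fin 2) (Fin 2) ℤ).trace ^ 2 = 4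
    rw [trace_conj, trace_T_zpow]; norm_num), zero_add]

/-- the function `h` on the group -/
def hf (φ : Additive (Gamma0 p) →+ A) (y : SL(2, ℤ)) : A := φ (Additive.ofMul (el p y))

lemma hf_of_mem {y : SL(2, ℤ)} (hy : y ∈ Gamma0 p) : hf φ y = φ (Additive.ofMul ⟨y, hy⟩) := by
  rw [hf, el_of_mem hy]

lemma hf_of_notMem (hφ : IsParabolicHom (Gamma0 p) φ) {y : SL(2, ℤ)} (hy : y ∉ Gamma0 p) {j : ℤ}
    (hj : S⁻¹ * T ^ (-j) * y ∈ Gamma0 p) :
    hf φ y = φ (Additive.ofMul ⟨S⁻¹ * T ^ (-j) * y, hj⟩) := hom_el_of_notMem hφ hy hj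

lemma hf_mul (hφ : IsParabolicHom (Gamma0 p) φ) (y : SL(2, ℤ)) (γ : Gamma0 p) :
    hf φ (y * γ) = hf φ y + φ (Additive.ofMul γ) := by
  by_cases hy : y ∈ Gamma0 p
  · rw [hf_of_mem (mul_mem hy γ.2), hf_of_mem hy, ← map_add, ← ofMul_mul]
    rfl
  · have hy' : y * γ ∉ Gamma0 p := fun h => hy (by
      have := mul_mem h (inv_mem γ.2)
      rwa [mul_inv_cancel_right] at this)
    obtain ⟨j, hj⟩ := exists_shift hy
    have hj' : S⁻¹ * T ^ (-j) * (y * γ) ∈ Gamma0 p := by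
      rw [← mul_assoc]; exact mul_mem hj γ.2
    rw [hf_of_notMem hφ hy hj, hf_of_notMem hφ hy' hj', ← map_add, ← ofMul_mul]
    congr 2
    apply Subtype.ext
    exact (mul_assoc (S⁻¹ * T ^ (-j)) y (γ : SL(2, ℤ))).symm

lemma T_mem : (T : SL(2, ℤ)) ∈ Gamma0 p := by
  have := Fermat.Agent.HeckeHom.T_zpow_mem p 1
  rwa [zpow_one] at this

lemma hf_T_mul (hφ : IsParabolicHom (Gamma0 p) φ) (y : SL(2, ℤ)) : hf φ (T * y) = hf φ y := by
  by_cases hy : y ∈ Gamma0 p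
  · have h1 : T * y ∈ Gamma0 p := mul_mem T_mem hy
    rw [hf_of_mem h1, hf_of_mem hy]
    have h2 : (⟨T * y, h1⟩ : Gamma0 p) = ⟨T, T_mem⟩ * ⟨y, hy⟩ := rfl
    rw [h2, ofMul_mul, map_add, hφ ⟨T, T_mem⟩ (by
      change ((T : SL(2, ℤ)) : Matrix (Fin 2) (Fin 2) ℤ).trace ^ 2 = 4
      rw [← zpow_one T, trace_T_zpow]; norm_num), zero_add]
  · have hy' : T * y ∉ Gamma0 p := fun h => hy (by
      have := mul_mem (inv_mem (T_mem (p := p))) h
      rwa [inv_mul_cancel_left] at this)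
    obtain ⟨j, hj⟩ := exists_shift hy
    have e : S⁻¹ * T ^ (-(j + 1)) * (T * y) = S⁻¹ * T ^ (-j) * y := by
      rw [neg_add, zpow_add]; group
    have hj' : S⁻¹ * T ^ (-(j + 1)) * (T * y) ∈ Gamma0 p := by rw [e]; exact hj
    rw [hf_of_notMem hφ hy hj, hf_of_notMem hφ hy' hj']
    congr 2
    exact Subtype.ext e

lemma neg_one_mem : (-1 : SL(2, ℤ)) ∈ Gamma0 p := Fermat.Agent.Period.neg_one_mem_Gamma0 p

lemma hf_neg (hφ : IsParabolicHom (Gamma0 p) φ) (y : SL(2, ℤ)) : hf φ (-y) = hf φ y := by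
  have h1 : -y = y * ((⟨-1, neg_one_mem⟩ : Gamma0 p) : SL(2, ℤ)) := by
    rw [mul_neg_one]
  rw [h1, hf_mul hφ, hφ ⟨-1, neg_one_mem⟩ (by
    change ((-1 : SL(2, ℤ)) : Matrix (Fin 2) (Fin 2) ℤ).trace ^ 2 = 4
    rw [Matrix.SpecialLinearGroup.coe_neg, Matrix.trace_neg]; simp), add_zero]

lemma hf_one : hf φ 1 = 0 := by
  rw [hf_of_mem (one_mem _)]
  exact map_zero φ

lemma S_notMem : (S : SL(2, ℤ)) ∉ Gamma0 p := by
  rw [mem_Gamma0_iff]
  intro h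
  have : (p : ℤ) ∣ 1 := by simpa [S] using h
  exact (Nat.prime_iff_prime_int.mp hp.out).not_isUnit (isUnit_of_dvd_one this)

lemma hf_S (hφ : IsParabolicHom (Gamma0 p) φ) : hf φ S = 0 := by
  have e : S⁻¹ * T ^ (-(0 : ℤ)) * S = 1 := by group
  have hj : S⁻¹ * T ^ (-(0 : ℤ)) * S ∈ Gamma0 p := by rw [e]; exact one_mem _
  rw [hf_of_notMem hφ S_notMem hj]
  have : (⟨S⁻¹ * T ^ (-(0 : ℤ)) * S, hj⟩ : Gamma0 p) = 1 := Subtype.ext e
  rw [this]
  exact map_zero φ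

/-- the function on cosets -/
def cf (φ : Additive (Gamma0 p) →+ A) (x : X p) : A := hf φ (S * x.out) - hf φ x.out

lemma cf_mk (hφ : IsParabolicHom (Gamma0 p) φ) (y : SL(2, ℤ)) :
    cf φ (QuotientGroup.mk y) = hf φ (S * y) - hf φ y := by
  obtain ⟨γ, hγ⟩ := QuotientGroup.mk_out_eq_mul (Gamma0 p) y
  have hγ' : (QuotientGroup.mk y : X p).out = y * γ := hγ
  rw [cf, hγ', ← mul_assoc, hf_mul hφ, hf_mul hφ]
  abel

lemma cf_S (hφ : IsParabolicHom (Gamma0 p) φ) (x : X p) : cf φ (S • x) = - cf φ x := by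
  induction x using QuotientGroup.induction_on with
  | H y =>
    rw [smul_mk, cf_mk hφ, cf_mk hφ]
    have e : S * (S * y) = -y := by
      rw [← mul_assoc, ← pow_two, Fermat.Agent.Period.S_sq, neg_one_mul]
    rw [e, hf_neg hφ]
    abel

lemma TS_cube : (T * S : SL(2, ℤ)) ^ 3 = -1 := by decide

lemma hf_TS (hφ : IsParabolicHom (Gamma0 p) φ) (y : SL(2, ℤ)) :
    hf φ (T * S * y) - hf φ y = cf φ (QuotientGroup.mk y) := by
  rw [cf_mk hφ, mul_assoc, hf_T_mul hφ]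

lemma cf_TS (hφ : IsParabolicHom (Gamma0 p) φ) (x : X p) :
    cf φ x + cf φ ((T * S) • x) + cf φ ((T * S) • (T * S) • x) = 0 := by
  induction x using QuotientGroup.induction_on with
  | H y =>
    rw [smul_mk, smul_mk, ← hf_TS hφ, ← hf_TS hφ, ← hf_TS hφ]
    have e : T * S * (T * S * (T * S * y)) = -y := by
      have : T * S * (T * S * (T * S * y)) = (T * S) ^ 3 * y := by
        rw [pow_succ, pow_two]; group
      rw [this, TS_cube, neg_one_mul]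
    rw [e, hf_neg hφ]
    abel

lemma cf_base (hφ : IsParabolicHom (Gamma0 p) φ) : cf φ (QuotientGroup.mk 1 : X p) = 0 := by
  rw [cf_mk hφ, mul_one, hf_S hφ, hf_one, sub_zero]

/-- fixed points -/
lemma cf_of_S_fixed (hφ : IsParabolicHom (Gamma0 p) φ)
    (hell : ∀ γ : Gamma0 p, γ ^ 12 = 1 → φ (Additive.ofMul γ) = 0) (x : X p) (hx : S • x = x) :
    cf φ x = 0 := by
  induction x using QuotientGroup.induction_on with
  | H y =>
    rw [smul_mk, eq_comm, QuotientGroup.eq, ← mul_assoc] at hx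
    rw [cf_mk hφ]
    have h1 : S * y = y * ((⟨y⁻¹ * S * y, hx⟩ : Gamma0 p) : SL(2, ℤ)) := by
      simp only; group
    rw [h1, hf_mul hφ, hell ⟨y⁻¹ * S * y, hx⟩ ?_]
    · abel
    · apply Subtype.ext
      change (y⁻¹ * S * y) ^ 12 = 1
      have h2 : (y⁻¹ * S * y) ^ 12 = y⁻¹ * S ^ 12 * y := by
        have := conj_pow (i := 12) (a := y⁻¹) (b := S)
        rwa [inv_inv] at this
      rw [h2]
      have h3 : (S : SL(2, ℤ)) ^ 12 = 1 := by decide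
      rw [h3, mul_one, inv_mul_cancel]

lemma cf_of_TS_fixed (hφ : IsParabolicHom (Gamma0 p) φ)
    (hell : ∀ γ : Gamma0 p, γ ^ 12 = 1 → φ (Additive.ofMul γ) = 0) (x : X p)
    (hx : (T * S) • x = x) : cf φ x = 0 := by
  induction x using QuotientGroup.induction_on with
  | H y =>
    rw [smul_mk, eq_comm, QuotientGroup.eq, ← mul_assoc] at hx
    rw [← hf_TS hφ]
    have h1 : T * S * y = y * ((⟨y⁻¹ * (T * S) * y, hx⟩ : Gamma0 p) : SL(2, ℤ)) := by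
      simp only; group
    rw [h1, hf_mul hφ, hell ⟨y⁻¹ * (T * S) * y, hx⟩ ?_]
    · abel
    · apply Subtype.ext
      change (y⁻¹ * (T * S) * y) ^ 12 = 1
      have h2 : (y⁻¹ * (T * S) * y) ^ 12 = y⁻¹ * (T * S) ^ 12 * y := by
        have := conj_pow (i := 12) (a := y⁻¹) (b := T * S)
        rwa [inv_inv] at this
      rw [h2]
      have h3 : (T * S : SL(2, ℤ)) ^ 12 = 1 := by
        have : (T * S : SL(2, ℤ)) ^ 12 = ((T * S) ^ 3) ^ 4 := by rw [← pow_mul]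
        rw [this, TS_cube]
        decide
      rw [h3, mul_one, inv_mul_cancel]

end hom

end

end Fermat.Agent.ShimuraCover
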