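import Fermat.Agent.ShimuraCover.Cocycle
import Fermat.Agent.Period.Count

set_option autoImplicit false

/-!
# Lifting characters `Γ₀(p) → ℤ/n` to parabolic homomorphisms `Γ₀(p) → ℤ`
-/

open Finset Matrix.SpecialLinearGroup CongruenceSubgroup
open scoped MatrixGroups
open ModularCurve ModularCurve.Period Fermat.Agent.Cosets Fermat.Agent.Period
open Fermat.Agent.HeckeHom
open ModularGroup (S T)

namespace Fermat.Agent.ShimuraCover

noncomputable section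

variable (p : ℕ) [hp : Fact p.Prime]

local notation "𝔾" => Gamma0 p

lemma Tr_mul (g h : SL(2, ℤ)) : Tr 𝔾 (g * h) = Tr 𝔾 h * Tr 𝔾 g := by
  refine LinearMap.ext fun f => funext fun x => ?_
  change f ((g * h) • x) = f (g • h • x)
  rw [mul_smul]

lemma KK_mul_le (g h : SL(2, ℤ)) : KK 𝔾 (g * h) ≤ KK 𝔾 g ⊔ KK 𝔾 h := by
  rintro _ ⟨f, rfl⟩
  have : (Tr 𝔾 (g * h) - 1) f = (Tr 𝔾 g - 1) f + (Tr 𝔾 h - 1) (Tr 𝔾 g f) := by
    rw [Tr_mul]
    simp only [LinearMap.sub_apply, Module.End.mul_apply, Module.End.one_apply]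
    abel
  rw [this]
  exact Submodule.add_mem_sup ⟨_, rfl⟩ ⟨_, rfl⟩

lemma KK_inv_le (g : SL(2, ℤ)) : KK 𝔾 g⁻¹ ≤ KK 𝔾 g := by
  rintro _ ⟨f, rfl⟩
  refine ⟨-(Tr 𝔾 g⁻¹ f), ?_⟩
  have h1 : Tr 𝔾 g (Tr 𝔾 g⁻¹ f) = f := by
    rw [← Module.End.mul_apply, ← Tr_mul, inv_mul_cancel]
    funext x
    change f ((1 : SL(2, ℤ)) • x) = f x
    rw [one_smul]
  rw [map_neg, LinearMap.sub_apply, LinearMap.sub_apply, h1, Module.End.one_apply,
    Module.End.one_apply]
  abel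

lemma KK_sup_le : KK 𝔾 S ⊔ KK 𝔾 (S * T) ≤ KK 𝔾 S ⊔ KK 𝔾 (T * S) := by
  have h1 : KK 𝔾 T ≤ KK 𝔾 S ⊔ KK 𝔾 (T * S) := by
    have e : (T : SL(2, ℤ)) = (T * S) * S⁻¹ := by group
    rw [e]
    refine (KK_mul_le p _ _).trans ?_
    rw [← e]
    exact sup_le le_sup_right ((KK_inv_le p S).trans le_sup_left)
  exact sup_le le_sup_left ((KK_mul_le p _ _).trans (sup_le le_sup_left h1))

lemma finrank_ker_TS : dedekindPsi p + 2 * nuThree p ≤
    3 * Module.finrank ℂ (LinearMap.ker (Tr 𝔾 (T * S) - 1)) := by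
  rw [← finrank_ker_ST]
  refine Nat.mul_le_mul_left 3 ?_
  refine LinearMap.finrank_le_finrank_of_injective
    (f := LinearMap.codRestrict (LinearMap.ker (Tr 𝔾 (T * S) - 1))
      ((Tr 𝔾 S) ∘ₗ (LinearMap.ker (Tr 𝔾 (S * T) - 1)).subtype) ?_) ?_
  · rintro ⟨f, hf⟩
    rw [LinearMap.mem_ker, LinearMap.sub_apply, sub_eq_zero] at hf ⊢
    funext x
    have h1 := congrFun hf (S • x)
    change f ((S * T) • S • x) = f (S • x) at h1
    change f (S • (T * S) • x) = f (S • x)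
    rw [← h1]
    congr 1
    rw [← mul_smul, ← mul_smul, mul_assoc]
  · rintro ⟨f, hf⟩ ⟨g, hg⟩ h
    apply Subtype.ext
    have h1 := congrArg Subtype.val h
    change Tr 𝔾 S f = Tr 𝔾 S g at h1
    funext x
    have h2 := congrFun h1 (S⁻¹ • x)
    change f (S • S⁻¹ • x) = g (S • S⁻¹ • x) at h2
    rwa [smul_inv_smul] at h2

/-- base point -/
def x0 : X p := QuotientGroup.mk 1

lemma S_smul_x0_ne : S • x0 p ≠ x0 p := by
  intro h
  have h1 : (QuotientGroup.mk (S * 1) : X p) = QuotientGroup.mk 1 := h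
  rw [eq_comm, QuotientGroup.eq] at h1
  apply S_notMem (p := p)
  simpa using h1

lemma TS_smul_S_smul_x0 : (T * S) • S • x0 p = x0 p := by
  have h1 : (T * S) • S • x0 p = QuotientGroup.mk (T * S * (S * 1)) := rfl
  rw [h1]
  change (QuotientGroup.mk (T * S * (S * 1)) : X p) = QuotientGroup.mk 1
  rw [eq_comm, QuotientGroup.eq]
  have e : (1 : SL(2, ℤ))⁻¹ * (T * S * (S * 1)) = T * (-1) := by
    rw [← S_sq, pow_two]; group
  rw [e]
  exact mul_mem T_mem neg_one_mem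

/-- the space of cycles -/
def Zc : Submodule ℂ (X p → ℂ) :=
  (KK 𝔾 S ⊓ KK 𝔾 (T * S)) ⊓ LinearMap.ker (LinearMap.proj (x0 p) : (X p → ℂ) →ₗ[ℂ] ℂ)

lemma mem_KK_S {f : X p → ℂ} (h : ∀ x, f (S • x) = - f x) : f ∈ KK 𝔾 S := by
  rw [KK, ← range_sub_one_eq_ker_sum two_pos
    (parPow_of_eq_neg_one (neg_one_mem_Gamma0 p) S_sq).Tr_pow_eq_one, LinearMap.mem_ker]
  funext x
  have e : (∑ i ∈ range 2, Tr 𝔾 S ^ i) = 1 + Tr 𝔾 S := by
    rw [Finset.sum_range_succ, Finset.sum_range_one, pow_zero, pow_one]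
  rw [e]
  change f x + f (S • x) = 0
  rw [h]; ring

lemma mem_KK_TS {f : X p → ℂ}
    (h : ∀ x, f x + f ((T * S) • x) + f ((T * S) • (T * S) • x) = 0) : f ∈ KK 𝔾 (T * S) := by
  rw [KK, ← range_sub_one_eq_ker_sum three_pos
    (parPow_of_eq_neg_one (neg_one_mem_Gamma0 p) TS_cube).Tr_pow_eq_one, LinearMap.mem_ker]
  funext x
  have e : (∑ i ∈ range 3, Tr 𝔾 (T * S) ^ i) = 1 + Tr 𝔾 (T * S) + Tr 𝔾 ((T * S) ^ 2) := by
    rw [Finset.sum_range_succ, Finset.sum_range_succ, Finset.sum_range_one, pow_zero, pow_one, Tr_pow]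
  rw [e]
  change f x + f ((T * S) • x) + f ((T * S) ^ 2 • x) = 0
  have e2 : ((T * S) ^ 2 : SL(2, ℤ)) • x = (T * S) • (T * S) • x := by
    rw [pow_two, mul_smul]
  rw [e2]
  exact h x

lemma mem_Zc {f : X p → ℂ} (h1 : ∀ x, f (S • x) = - f x)
    (h2 : ∀ x, f x + f ((T * S) • x) + f ((T * S) • (T * S) • x) = 0) (h3 : f (x0 p) = 0) :
    f ∈ Zc p := ⟨⟨mem_KK_S p h1, mem_KK_TS p h2⟩, h3⟩

lemma finrank_Zc_add_one : Module.finrank ℂ (Zc p) + 1 ≤
    Module.finrank ℂ ↥(KK 𝔾 S ⊓ KK 𝔾 (T * S)) := by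
  classical
  set K := KK 𝔾 S ⊓ KK 𝔾 (T * S) with hK
  let ev : K →ₗ[ℂ] ℂ := (LinearMap.proj (x0 p)) ∘ₗ K.subtype
  let e : X p → ℂ := Pi.single (x0 p) 1 - Pi.single (S • x0 p) 1
  have hSS : ∀ x : X p, S • S • x = x := by
    intro x
    have h1 := congrFun (LinearMap.congr_fun ((parPow_of_eq_neg_one (neg_one_mem_Gamma0 p)
      S_sq).Tr_pow_eq_one (Γ := 𝔾)) (Pi.single x 1)) x
    rw [Tr_pow] at h1
    change (Pi.single x (1 : ℂ) : X p → ℂ) (S ^ 2 • x) = (Pi.single x (1 : ℂ) : X p → ℂ) x at h1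
    rw [Pi.single_eq_same, Pi.single_apply] at h1
    by_contra hne
    rw [if_neg (by rw [pow_two, mul_smul]; exact hne)] at h1
    exact zero_ne_one h1
  have he : e ∈ K := by
    refine ⟨mem_KK_S p fun x => ?_, ?_⟩
    · simp only [e, Pi.sub_apply, Pi.single_apply]
      have e1 : (S • x = x0 p) ↔ (x = S • x0 p) := by
        constructor
        · intro h; rw [← h, hSS]
        · rintro rfl; exact hSS _
      have e2 : (S • x = S • x0 p) ↔ (x = x0 p) := smul_left_cancel_iff S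
      simp only [e1, e2]
      ring
    · refine ⟨Pi.single (x0 p) (1 : ℂ) * (-1), ?_⟩
      funext x
      rw [LinearMap.sub_apply, Module.End.one_apply]
      change (Pi.single (x0 p) (1 : ℂ) * (-1) : X p → ℂ) ((T * S) • x) -
        (Pi.single (x0 p) (1 : ℂ) * (-1) : X p → ℂ) x = e x
      simp only [e, Pi.sub_apply, Pi.mul_apply, Pi.single_apply, Pi.neg_apply, Pi.one_apply]
      have e1 : ((T * S) • x = x0 p) ↔ (x = S • x0 p) := by
        constructor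
        · intro h
          rw [← TS_smul_S_smul_x0 p] at h
          exact smul_left_cancel (T * S) h
        · rintro rfl; exact TS_smul_S_smul_x0 p
      simp only [e1]
      ring
  have hev : LinearMap.range ev = ⊤ := by
    rw [LinearMap.range_eq_top]
    intro c
    refine ⟨c • ⟨e, he⟩, ?_⟩
    change c * (e (x0 p)) = c
    simp only [e, Pi.sub_apply, Pi.single_apply]
    rw [if_pos trivial, if_neg (fun h => S_smul_x0_ne p h.symm)]
    ring
  have h1 := ev.finrank_range_add_finrank_ker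
  rw [hev, finrank_top, Module.finrank_self] at h1
  have h2 : Module.finrank ℂ (Zc p) ≤ Module.finrank ℂ (LinearMap.ker ev) := by
    refine LinearMap.finrank_le_finrank_of_injective
      (f := LinearMap.codRestrict (LinearMap.ker ev)
        (LinearMap.codRestrict K (Zc p).subtype (fun f => f.2.1)) (fun f => f.2.2)) ?_
    intro a b hab
    apply Subtype.ext
    exact congrArg (fun z : LinearMap.ker ev => (z : K).1) hab
  omega

lemma cuspCount_prime : cuspCount p = 2 := by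
  rw [cuspCount, Nat.Prime.sum_divisors hp.out]
  have h1 : p / p = 1 := Nat.div_self hp.out.pos
  rw [h1, Nat.div_one, Nat.gcd_one_left, Nat.gcd_one_right, Nat.totient_one]

theorem finrank_Zc_le : (Module.finrank ℂ (Zc p) : ℚ) ≤ 2 * genusFormula p := by
  have h1 := finrank_Zc_add_one p
  have h2 := Submodule.finrank_sup_add_finrank_inf_eq (KK 𝔾 S) (KK 𝔾 (T * S))
  have h3 := finrank_KK_sup (Γ := 𝔾)
  have h4 := Submodule.finrank_mono (KK_sup_le p)
  have f : ∀ g : SL(2, ℤ), Module.finrank ℂ ↥(KK 𝔾 g) +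
      Module.finrank ℂ (LinearMap.ker (Tr 𝔾 g - 1)) = Fintype.card (X p) := fun g => by
    have := finrank_range_add_finrank_ker (Tr 𝔾 g)
    rwa [Module.finrank_fintype_fun_eq_card] at this
  have f1 := f S
  have f2 := f (T * S)
  have h5 := finrank_ker_S p
  have h6 := finrank_ker_TS p
  have h7 := fintype_card_X p
  rw [h7] at h3 f1 f2
  rw [genusFormula, cuspCount_prime]
  have g1 : (Module.finrank ℂ (Zc p) : ℚ) + 1 ≤ Module.finrank ℂ ↥(KK 𝔾 S ⊓ KK 𝔾 (T * S)) := by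
    exact_mod_cast h1
  have g2 : (Module.finrank ℂ ↥(KK 𝔾 S ⊔ KK 𝔾 (T * S)) : ℚ) +
      Module.finrank ℂ ↥(KK 𝔾 S ⊓ KK 𝔾 (T * S)) =
      Module.finrank ℂ ↥(KK 𝔾 S) + Module.finrank ℂ ↥(KK 𝔾 (T * S)) := by exact_mod_cast h2
  have g3 : (dedekindPsi p : ℚ) ≤ Module.finrank ℂ ↥(KK 𝔾 S ⊔ KK 𝔾 (S * T)) + 1 := by
    exact_mod_cast h3
  have g4 : (Module.finrank ℂ ↥(KK 𝔾 S ⊔ KK 𝔾 (S * T)) : ℚ) ≤
    Module.finrank ℂ ↥(KK 𝔾 S ⊔ KK 𝔾 (T * S)) := by exact_mod_cast h4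
  have k1 : (Module.finrank ℂ ↥(KK 𝔾 S) : ℚ) +
      Module.finrank ℂ (LinearMap.ker (Tr 𝔾 S - 1)) = dedekindPsi p := by exact_mod_cast f1
  have k2 : (Module.finrank ℂ ↥(KK 𝔾 (T * S)) : ℚ) +
      Module.finrank ℂ (LinearMap.ker (Tr 𝔾 (T * S) - 1)) = dedekindPsi p := by exact_mod_cast f2
  have k5 : 2 * (Module.finrank ℂ (LinearMap.ker (Tr 𝔾 S - 1)) : ℚ) =
    dedekindPsi p + nuTwo p := by exact_mod_cast h5
  have k6 : (dedekindPsi p : ℚ) + 2 * nuThree p ≤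
    3 * Module.finrank ℂ (LinearMap.ker (Tr 𝔾 (T * S) - 1)) := by exact_mod_cast h6
  push_cast
  linarith

end

end Fermat.Agent.ShimuraCover
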