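import Fermat.Agent.ShimuraCover.Lift
import Fermat.Agent.S20

set_option autoImplicit false

/-!
# Lifting characters `Γ₀(p) → ℤ/n` to parabolic homomorphisms `Γ₀(p) → ℤ`, II
-/

open Finset Matrix.SpecialLinearGroup CongruenceSubgroup
open scoped MatrixGroups
open ModularCurve ModularCurve.Period Fermat.Agent.Cosets Fermat.Agent.Period
open Fermat.Agent.HeckeHom
open ModularGroup (S T)

namespace Fermat.Agent.ShimuraCover

noncomputable section

variable (p : ℕ) [hp : Fact p.Prime]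

/-- the map to cycles -/
def Phi : LC p →ₗ[ℂ] Zc p where
  toFun φ := ⟨cf φ.1, mem_Zc p (cf_S φ.2) (cf_TS φ.2) (cf_base φ.2)⟩
  map_add' φ ψ := by
    apply Subtype.ext
    funext x
    change (φ.1 _ + ψ.1 _) - (φ.1 _ + ψ.1 _) = (φ.1 _ - φ.1 _) + (ψ.1 _ - ψ.1 _)
    ring
  map_smul' c φ := by
    apply Subtype.ext
    funext x
    change (c * φ.1 _) - (c * φ.1 _) = c * (φ.1 _ - φ.1 _)
    ring

/-- induction over `SL₂(ℤ)` -/
lemma forall_of_ST {P : SL(2, ℤ) → Prop} (hS : P S) (hT : P T) (h1 : P 1)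
    (hmul : ∀ g h, P g → P h → P (g * h)) (hinv : ∀ g, P g → P g⁻¹) (g : SL(2, ℤ)) : P g := by
  have hg : g ∈ Subgroup.closure ({S, T} : Set SL(2, ℤ)) := by
    rw [SpecialLinearGroup.SL2Z_generators]; trivial
  induction hg using Subgroup.closure_induction with
  | mem x hx =>
    rcases hx with rfl | rfl
    · exact hS
    · exact hT
  | one => exact h1
  | mul x y _ _ hx hy => exact hmul x y hx hy
  | inv x _ hx => exact hinv x hx

variable {p}

lemma hf_const {A : Type*} [AddCommGroup A] {φ : Additive (Gamma0 p) →+ A}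
    (hφ : IsParabolicHom (Gamma0 p) φ) (h : ∀ x, cf φ x = 0) (g y : SL(2, ℤ)) :
    hf φ (g * y) = hf φ y := by
  revert y
  refine forall_of_ST (P := fun g => ∀ y, hf φ (g * y) = hf φ y) ?_ ?_ ?_ ?_ ?_ g
  · intro y
    have := h (QuotientGroup.mk y)
    rwa [cf_mk hφ, sub_eq_zero] at this
  · exact fun y => hf_T_mul hφ y
  · intro y; rw [one_mul]
  · intro g h hg hh y
    rw [mul_assoc, hg, hh]
  · intro g hg y
    rw [← hg (g⁻¹ * y), mul_inv_cancel_left]

variable (p)

lemma Phi_injective : Function.Injective (Phi p) := by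
  rw [injective_iff_map_eq_zero]
  intro φ hφ
  have h0 : ∀ x, cf φ.1 x = 0 := fun x => congrFun (congrArg Subtype.val hφ) x
  apply Subtype.ext
  ext γ
  obtain ⟨γ, rfl⟩ := Additive.ofMul.surjective γ
  have h1 := hf_const φ.2 h0 γ 1
  rw [mul_one, hf_one, hf_of_mem γ.2] at h1
  exact h1

lemma Phi_surjective : Function.Surjective (Phi p) := by
  have hfin : Module.Finite ℂ (LC p) := Module.Finite.of_injective (Phi p) (Phi_injective p)
  have h1 : Module.finrank ℂ (LC p) = 2 * Module.finrank ℂ (S2 p) := by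
    have : Module.Finite ℂ (S2 p × S2 p) := Module.Finite.equiv (esEquiv p).symm
    have : Module.Finite ℂ (S2 p) := Module.Finite.of_surjective (LinearMap.fst ℂ (S2 p) (S2 p))
      Prod.fst_surjective
    rw [← (esEquiv p).finrank_eq, Module.finrank_prod, two_mul]
  have h2 := finrank_Zc_le p
  rw [← Fermat.Agent.S20.result] at h2
  have h3 : Module.finrank ℂ (Zc p) ≤ Module.finrank ℂ (LC p) := by
    rw [h1]; exact_mod_cast h2
  have h4 : Module.finrank ℂ (LC p) = Module.finrank ℂ (Zc p) :=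
    le_antisymm (LinearMap.finrank_le_finrank_of_injective (Phi_injective p)) h3
  exact (LinearMap.injective_iff_surjective_of_finrank_eq_finrank h4).mp (Phi_injective p)

/-- every integral cycle comes from an integral parabolic homomorphism; simultaneous version
with the reduction modulo `n` -/
theorem exists_lift {n : ℕ} [NeZero n] (χ : Additive (Gamma0 p) →+ ZMod n)
    (hχ : IsParabolicHom (Gamma0 p) χ)
    (hell : ∀ γ : Gamma0 p, γ ^ 12 = 1 → χ (Additive.ofMul γ) = 0) :
    ∃ ψ : LZ p, ∀ γ, ((ψ.1 γ : ℤ) : ZMod n) = χ γ := by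
  classical
  have hgen : Subgroup.closure ({S, T * S} : Set SL(2, ℤ)) = ⊤ := by
    rw [eq_top_iff, ← SpecialLinearGroup.SL2Z_generators, Subgroup.closure_le]
    have hS : S ∈ Subgroup.closure ({S, T * S} : Set SL(2, ℤ)) :=
      Subgroup.subset_closure (Or.inl rfl)
    have hTS : T * S ∈ Subgroup.closure ({S, T * S} : Set SL(2, ℤ)) :=
      Subgroup.subset_closure (Or.inr rfl)
    rintro x (rfl | rfl)
    · exact hS
    · have := mul_mem hTS (inv_mem hS)
      rwa [mul_inv_cancel_right] at this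
  have hSS : ∀ x : X p, S • S • x = x := by
    intro x
    induction x using QuotientGroup.induction_on with
    | H y =>
      rw [smul_mk, smul_mk, QuotientGroup.eq]
      have : (S * (S * y))⁻¹ * y = -1 := by
        rw [← mul_assoc, ← pow_two, S_sq, neg_one_mul]
        rw [show (-y)⁻¹ = -(y⁻¹) from by rw [eq_comm, eq_inv_iff_mul_eq_one]; simp, neg_mul,
          inv_mul_cancel]
      rw [this]; exact neg_one_mem
  have hUUU : ∀ x : X p, (T * S) • (T * S) • (T * S) • x = x := by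
    intro x
    induction x using QuotientGroup.induction_on with
    | H y =>
      rw [smul_mk, smul_mk, smul_mk, QuotientGroup.eq]
      have : (T * S * (T * S * (T * S * y)))⁻¹ * y = -1 := by
        have e : T * S * (T * S * (T * S * y)) = (T * S) ^ 3 * y := by
          rw [pow_succ, pow_two]; group
        rw [e, TS_cube, neg_one_mul]
        rw [show (-y)⁻¹ = -(y⁻¹) from by rw [eq_comm, eq_inv_iff_mul_eq_one]; simp, neg_mul,
          inv_mul_cancel]
      rw [this]; exact neg_one_mem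
  obtain ⟨F, hF, hFS, hFU, hF0⟩ := lift_cycle hgen hSS hUUU (x0 p) (TS_smul_S_smul_x0 p) (cf χ)
    (cf_S hχ) (fun x hx => cf_of_S_fixed hχ hell x hx) (cf_TS hχ)
    (fun x hx => cf_of_TS_fixed hχ hell x hx) (cf_base hχ)
  obtain ⟨φ, hφ⟩ := Phi_surjective p ⟨fun x => (F x : ℂ), mem_Zc p
    (fun x => by rw [hFS]; push_cast; ring)
    (fun x => by exact_mod_cast hFU x) (by rw [hF0]; simp)⟩
  have hφ' : ∀ x, cf φ.1 x = (F x : ℂ) := fun x => congrFun (congrArg Subtype.val hφ) x
  have key : ∀ g y : SL(2, ℤ), ∃ k : ℤ, hf φ.1 (g * y) - hf φ.1 y = k ∧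
      hf χ (g * y) - hf χ y = (k : ZMod n) := by
    intro g
    refine forall_of_ST (P := fun g => ∀ y : SL(2, ℤ), ∃ k : ℤ, hf φ.1 (g * y) - hf φ.1 y = k ∧
      hf χ (g * y) - hf χ y = (k : ZMod n)) ?_ ?_ ?_ ?_ ?_ g
    · intro y
      refine ⟨F (QuotientGroup.mk y), ?_, ?_⟩
      · rw [← cf_mk φ.2, hφ']
      · rw [← cf_mk hχ, hF]
    · intro y
      refine ⟨0, ?_, ?_⟩
      · rw [hf_T_mul φ.2, sub_self, Int.cast_zero]
      · rw [hf_T_mul hχ, sub_self, Int.cast_zero]
    · intro y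
      exact ⟨0, by rw [one_mul, sub_self, Int.cast_zero], by rw [one_mul, sub_self, Int.cast_zero]⟩
    · intro g h hg hh y
      obtain ⟨k, hk, hk'⟩ := hg (h * y)
      obtain ⟨l, hl, hl'⟩ := hh y
      refine ⟨k + l, ?_, ?_⟩
      · rw [Int.cast_add, ← hk, ← hl, mul_assoc]; ring
      · rw [Int.cast_add, ← hk', ← hl', mul_assoc]; ring
    · intro g hg y
      obtain ⟨k, hk, hk'⟩ := hg (g⁻¹ * y)
      rw [mul_inv_cancel_left] at hk hk'
      refine ⟨-k, ?_, ?_⟩
      · rw [Int.cast_neg, ← hk]; ring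
      · rw [Int.cast_neg, ← hk']; ring
  have key2 : ∀ γ : Gamma0 p, ∃ k : ℤ, φ.1 (Additive.ofMul γ) = k ∧
      χ (Additive.ofMul γ) = (k : ZMod n) := by
    intro γ
    obtain ⟨k, hk, hk'⟩ := key γ 1
    rw [mul_one, hf_one, sub_zero, hf_of_mem γ.2] at hk hk'
    exact ⟨k, hk, hk'⟩
  choose f hf1 hf2 using key2
  refine ⟨⟨AddMonoidHom.mk' (fun γ => f (Additive.toMul γ)) ?_, ?_⟩, ?_⟩
  · intro a b
    have h1 : (f (Additive.toMul (a + b)) : ℂ) = f (Additive.toMul a) + f (Additive.toMul b) := by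
      rw [← hf1, ← hf1, ← hf1, ← map_add]
      rfl
    exact_mod_cast h1
  · intro γ hγ
    change f γ = 0
    have h1 : (f γ : ℂ) = 0 := by rw [← hf1]; exact φ.2 γ hγ
    exact_mod_cast h1
  · intro γ
    change ((f (Additive.toMul γ) : ℤ) : ZMod n) = χ γ
    rw [← hf2]
    rfl

end

end Fermat.Agent.ShimuraCover
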